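/-
helper38 (P-CFT / LOC-6, row 755 BR-SYLOW): the `p`-torsion of `H²(Gal(F/K), Fˣ)` is cyclic for
every finite Galois extension of local fields, from the `p`-group case and the tower statement
(`Fermat.Agent.H24.Brauer.PTorsionCyclicAbsStatement`).

Route: restriction to a Sylow `p`-subgroup `P` is injective on `p`-torsion (helper75), and
`H²(P, Fˣ) ≃ H²(Gal(F/F^P), Fˣ)` (helper44) is cyclic by the `p`-group case.
-/
import Fermat.Agent.H24.Brauer.Interfaces
import Fermat.Agent.H44.CFT.FieldDict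
import Fermat.Agent.H75.Coh2Res

set_option autoImplicit false
set_option linter.style.haveILetI false
set_option synthInstance.maxHeartbeats 400000

noncomputable section

open CategoryTheory groupCohomology Rep

namespace Fermat.Agent.H38.Brauer

open Fermat.Agent.H24.Brauer Fermat.Agent.H44.CFT

/-- In a cyclic group, two elements killed by a prime `p`, the first one nonzero: the second is
an integer multiple of the first. -/
theorem exists_zsmul_of_isAddCyclic {C : Type*} [AddCommGroup C] [IsAddCyclic C] (p : ℕ)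
    (hp : p.Prime) {a b : C} (ha : p • a = 0) (hb : p • b = 0) (hne : a ≠ 0) :
    ∃ m : ℤ, b = m • a := by
  -- the subgroup of elements killed by `p`
  let T : AddSubgroup C := (nsmulAddMonoidHom (α := C) p).ker
  have hT : ∀ x : C, x ∈ T ↔ p • x = 0 := fun x => by
    rw [AddMonoidHom.mem_ker]
    rfl
  obtain ⟨g, hg⟩ := IsAddCyclic.exists_generator (α := T)
  have hgp : p • (g : C) = 0 := (hT _).mp g.2
  obtain ⟨s, hs⟩ := AddSubgroup.mem_zmultiples_iff.mp (hg ⟨a, (hT a).mpr ha⟩)
  obtain ⟨t, ht⟩ := AddSubgroup.mem_zmultiples_iff.mp (hg ⟨b, (hT b).mpr hb⟩)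
  have hs' : s • (g : C) = a := by
    have := congrArg (fun x : T => (x : C)) hs
    simpa using this
  have ht' : t • (g : C) = b := by
    have := congrArg (fun x : T => (x : C)) ht
    simpa using this
  have hps : ¬ (p : ℤ) ∣ s := by
    rintro ⟨c, rfl⟩
    apply hne
    rw [← hs', mul_comm, mul_smul, natCast_zsmul, hgp, smul_zero]
  have hcop : IsCoprime (p : ℤ) s :=
    (Prime.coprime_iff_not_dvd (Nat.prime_iff_prime_int.mp hp)).mpr hps
  obtain ⟨u, v, huv⟩ := hcop
  have hga : (g : C) = v • a := by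
    calc (g : C) = (u * (p : ℤ) + v * s) • (g : C) := by rw [huv, one_smul]
      _ = v • a := by
        rw [add_smul, mul_smul, natCast_zsmul, hgp, smul_zero, zero_add, mul_smul, hs']
  refine ⟨t * v, ?_⟩
  rw [← ht', mul_smul, ← hga]

/-- **[BR-SYLOW]** -/
theorem pTorsionCyclicAbs (h1 : PGroupCyclicAbsStatement) (h2 : LocalPairTowerStatement) :
    PTorsionCyclicAbsStatement := by
  intro p q _ _ K F _ _ _ _ _ j hj x₁ x₂ hx₁ hx₂ hne
  classical
  have hp : p.Prime := Fact.out
  haveI : Finite (F ≃ₐ[K] F) := inferInstance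
  let P : Sylow p (F ≃ₐ[K] F) := default
  let ι : ↥(P : Subgroup (F ≃ₐ[K] F)) →* (F ≃ₐ[K] F) := (P : Subgroup (F ≃ₐ[K] F)).subtype
  have hι : Function.Injective ι := Subtype.val_injective
  -- the layer `F / F^P`
  have hpair : IsLocalPair q ↥(layerBase ι) F j := h2 q K ↥(layerBase ι) F j hj
  have hPG : IsPGroup p (F ≃ₐ[layerBase ι] F) := (P.isPGroup').of_equiv (layerEquiv ι hι)
  have hcyc : IsAddCyclic (groupCohomology.H2 (Rep.ofAlgebraAutOnUnits ↥(layerBase ι) F)) :=
    h1 p q ↥(layerBase ι) F j hpair hPG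
  -- transport to `H²(P, Fˣ)`
  have hcyc' : IsAddCyclic (groupCohomology.H2 (res ι (Rep.ofAlgebraAutOnUnits K F))) := by
    rw [res_eq_res_layerEquiv ι hι]
    let i := mapIso (A := Rep.ofAlgebraAutOnUnits (layerBase ι) F)
      (B := res (layerEquiv ι hι).toMonoidHom (Rep.ofAlgebraAutOnUnits (layerBase ι) F))
      (layerEquiv ι hι) (LinearEquiv.refl ℤ _) (fun g => rfl) 2
    exact isAddCyclic_of_surjective i.toLinearEquiv.symm.toAddEquiv.toAddMonoidHom
      i.toLinearEquiv.symm.surjective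
  -- restriction to `P`
  let r : groupCohomology.H2 (Rep.ofAlgebraAutOnUnits K F) →ₗ[ℤ]
      groupCohomology.H2 (res ι (Rep.ofAlgebraAutOnUnits K F)) :=
    (groupCohomology.map ι (𝟙 (res ι (Rep.ofAlgebraAutOnUnits K F))) 2).hom
  have hidx : ¬ p ∣ (P : Subgroup (F ≃ₐ[K] F)).index := P.not_dvd_index
  have hinj : ∀ x : groupCohomology.H2 (Rep.ofAlgebraAutOnUnits K F),
      p • x = 0 → r x = 0 → x = 0 := by
    intro x hpx hrx
    refine Fermat.Agent.H75.Coh2.eq_zero_of_res_eq_zero_of_prime_pow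
      (Rep.ofAlgebraAutOnUnits K F) (P : Subgroup (F ≃ₐ[K] F)) p 1 hp hidx x ?_ hrx
    rwa [pow_one]
  have hr1 : r x₁ ≠ 0 := fun h => hne (hinj x₁ hx₁ h)
  have hpr1 : p • r x₁ = 0 := by rw [← map_nsmul, hx₁, map_zero]
  have hpr2 : p • r x₂ = 0 := by rw [← map_nsmul, hx₂, map_zero]
  obtain ⟨m, hm⟩ := exists_zsmul_of_isAddCyclic p hp hpr1 hpr2 hr1
  refine ⟨m, ?_⟩
  rw [← sub_eq_zero]
  apply hinj
  · have e : p • (x₂ - m • x₁) = p • x₂ - m • (p • x₁) := by
      rw [smul_sub, smul_comm]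
    rw [e, hx₂, hx₁, zsmul_zero, sub_zero]
  · rw [map_sub, map_zsmul, hm, sub_self]

end Fermat.Agent.H38.Brauer
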