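/-
helper38 (P-CFT / LOC-6, BR-SYLOW+, requested by helper24): the `p ^ n`-torsion of
`H²(Gal(F/K), Fˣ)` lies in the subgroup generated by any class whose order is divisible by
`p ^ n`, for every finite Galois extension of local fields
(`Fermat.Agent.H24.Brauer.PPowTorsionCyclicAbsStatement`).

Route: restriction `r` to a Sylow `p`-subgroup `P`; `H²(P, Fˣ)` is cyclic by the `p`-group case;
the order of `r x₁` is still divisible by `p ^ n`; `r x₂ = m • r x₁`; then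
`[G : P] • (x₂ - m • x₁) = 0` and `[G : P]` is prime to `p`.
-/
import Fermat.Agent.H24.Brauer.Interfaces2
import Fermat.Agent.H44.CFT.FieldDict
import Fermat.Agent.H75.Coh2Res

set_option autoImplicit false
set_option linter.style.haveILetI false
set_option synthInstance.maxHeartbeats 400000

noncomputable section

open CategoryTheory groupCohomology Rep

namespace Fermat.Agent.H38.Brauer

open Fermat.Agent.H24.Brauer Fermat.Agent.H44.CFT

/-- Arithmetic core: if `N ∣ k a` forces `q ∣ k` and `N ∣ q b`, then `b ≡ m a mod N` for some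
`m`. -/
theorem int_exists_mul_sub_dvd (q a b N : ℤ) (hq : q ≠ 0)
    (hx : ∀ k : ℤ, N ∣ k * a → q ∣ k) (hy : N ∣ q * b) : ∃ m : ℤ, N ∣ b - m * a := by
  have hbez : ((Int.gcd a N : ℕ) : ℤ) = a * Int.gcdA a N + N * Int.gcdB a N :=
    Int.gcd_eq_gcd_ab a N
  obtain ⟨a', ha'⟩ : ((Int.gcd a N : ℕ) : ℤ) ∣ a := Int.gcd_dvd_left a N
  obtain ⟨N', hN'⟩ : ((Int.gcd a N : ℕ) : ℤ) ∣ N := Int.gcd_dvd_right a N
  generalize ((Int.gcd a N : ℕ) : ℤ) = d at hbez ha' hN'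
  have h1 : N ∣ N' * a := by
    refine ⟨a', ?_⟩
    have e1 : N' * a = N' * (d * a') := by rw [← ha']
    have e2 : N * a' = d * N' * a' := by rw [← hN']
    rw [e1, e2]
    ring
  obtain ⟨N'', hN''⟩ := hx N' h1
  have hN3 : N = q * (d * N'') := by
    have e3 : d * N' = d * (q * N'') := by rw [← hN'']
    rw [hN', e3]
    ring
  have h2 : q * (d * N'') ∣ q * b := by
    rw [← hN3]
    exact hy
  obtain ⟨c, hc⟩ := (mul_dvd_mul_iff_left hq).mp h2
  refine ⟨N'' * c * Int.gcdA a N, ⟨N'' * c * Int.gcdB a N, ?_⟩⟩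
  have e4 : b = (a * Int.gcdA a N + N * Int.gcdB a N) * (N'' * c) := by
    rw [← hbez, hc]
    ring
  have e5 : b - N'' * c * Int.gcdA a N * a = (a * Int.gcdA a N + N * Int.gcdB a N) * (N'' * c)
      - N'' * c * Int.gcdA a N * a := by rw [← e4]
  rw [e5]
  ring

/-- In a cyclic group: an element killed by `q ≠ 0` is an integer multiple of any element whose
order is divisible by `q`. -/
theorem exists_zsmul_of_isAddCyclic_of_dvd {C : Type*} [AddCommGroup C] [IsAddCyclic C] (q : ℤ)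
    (hq : q ≠ 0) {x y : C} (hx : ∀ k : ℤ, k • x = 0 → q ∣ k) (hy : q • y = 0) :
    ∃ m : ℤ, y = m • x := by
  obtain ⟨g, hg⟩ := IsAddCyclic.exists_generator (α := C)
  obtain ⟨a, ha⟩ := AddSubgroup.mem_zmultiples_iff.mp (hg x)
  obtain ⟨b, hb⟩ := AddSubgroup.mem_zmultiples_iff.mp (hg y)
  have key : ∀ k : ℤ, ((addOrderOf g : ℕ) : ℤ) ∣ k ↔ k • g = 0 := fun k =>
    addOrderOf_dvd_iff_zsmul_eq_zero
  obtain ⟨m, hm⟩ := int_exists_mul_sub_dvd q a b ((addOrderOf g : ℕ) : ℤ) hq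
    (fun k hk => hx k (by rw [← ha, ← mul_smul]; exact (key _).mp hk))
    (by rw [key, mul_smul, hb]; exact hy)
  refine ⟨m, ?_⟩
  have h := (key _).mp hm
  rw [sub_smul, mul_smul, ha, hb, sub_eq_zero] at h
  exact h

/-- **[BR-SYLOW+]** -/
theorem pPowTorsionCyclicAbs (h1 : PGroupCyclicAbsStatement) (h2 : LocalPairTowerStatement) :
    PPowTorsionCyclicAbsStatement := by
  intro p q _ _ K F _ _ _ _ _ j hj n x₁ x₂ hx₁ hx₂
  classical
  have hp : p.Prime := Fact.out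
  haveI : Finite (F ≃ₐ[K] F) := inferInstance
  let P : Sylow p (F ≃ₐ[K] F) := default
  let ι : ↥(P : Subgroup (F ≃ₐ[K] F)) →* (F ≃ₐ[K] F) := (P : Subgroup (F ≃ₐ[K] F)).subtype
  have hι : Function.Injective ι := Subtype.val_injective
  -- the layer `F / F^P`
  have hpair : IsLocalPair q ↥(layerBase ι) F j := h2 q K ↥(layerBase ι) F j hj
  have hPG : IsPGroup p (F ≃ₐ[layerBase ι] F) := (P.isPGroup').of_equiv (layerEquiv ι hι)
  have hcyc : IsAddCyclic (groupCohomology.H2 (Rep.ofAlgebraAutOnUnits ↥(layerBase ι) F)) :=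
    h1 p q ↥(layerBase ι) F j hpair hPG
  -- transport to `H²(P, Fˣ)`
  have hcyc' : IsAddCyclic (groupCohomology.H2 (res ι (Rep.ofAlgebraAutOnUnits K F))) := by
    rw [res_eq_res_layerEquiv ι hι]
    let i := mapIso (A := Rep.ofAlgebraAutOnUnits (layerBase ι) F)
      (B := res (layerEquiv ι hι).toMonoidHom (Rep.ofAlgebraAutOnUnits (layerBase ι) F))
      (layerEquiv ι hι) (LinearEquiv.refl ℤ _) (fun g => rfl) 2
    exact isAddCyclic_of_surjective i.toLinearEquiv.symm.toAddEquiv.toAddMonoidHom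
      i.toLinearEquiv.symm.surjective
  -- restriction to `P`
  let r : groupCohomology.H2 (Rep.ofAlgebraAutOnUnits K F) →ₗ[ℤ]
      groupCohomology.H2 (res ι (Rep.ofAlgebraAutOnUnits K F)) :=
    (groupCohomology.map ι (𝟙 (res ι (Rep.ofAlgebraAutOnUnits K F))) 2).hom
  have hidx : ¬ p ∣ (P : Subgroup (F ≃ₐ[K] F)).index := P.not_dvd_index
  have hcop : IsCoprime (((p ^ n : ℕ) : ℤ)) (((P : Subgroup (F ≃ₐ[K] F)).index : ℕ) : ℤ) :=
    Nat.isCoprime_iff_coprime.mpr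
      (Nat.Coprime.pow_left n ((Nat.Prime.coprime_iff_not_dvd hp).2 hidx))
  have hkill : ∀ x : groupCohomology.H2 (Rep.ofAlgebraAutOnUnits K F), r x = 0 →
      (((P : Subgroup (F ≃ₐ[K] F)).index : ℕ) : ℤ) • x = 0 := by
    intro x hrx
    rw [natCast_zsmul]
    exact Fermat.Agent.H75.Coh2.index_smul_eq_zero_of_res_eq_zero
      (Rep.ofAlgebraAutOnUnits K F) (P : Subgroup (F ≃ₐ[K] F)) x hrx
  -- (i) the order of `r x₁` is divisible by `p ^ n`
  have hr1 : ∀ k : ℤ, k • r x₁ = 0 → ((p ^ n : ℕ) : ℤ) ∣ k := by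
    intro k hk
    have h3 : r (k • x₁) = 0 := by rw [map_zsmul, hk]
    have h4 := hkill _ h3
    rw [← mul_zsmul] at h4
    exact hcop.dvd_of_dvd_mul_left (hx₁ _ h4)
  have hr2 : ((p ^ n : ℕ) : ℤ) • r x₂ = 0 := by
    rw [natCast_zsmul, ← map_nsmul, hx₂, map_zero]
  have hpn : ((p ^ n : ℕ) : ℤ) ≠ 0 := by
    exact_mod_cast pow_ne_zero n hp.ne_zero
  -- (ii) `r x₂ = m • r x₁`
  obtain ⟨m, hm⟩ := exists_zsmul_of_isAddCyclic_of_dvd _ hpn hr1 hr2
  -- (iii) `[G : P] • (x₂ - m • x₁) = 0`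
  have h5 : (((P : Subgroup (F ≃ₐ[K] F)).index : ℕ) : ℤ) • (x₂ - m • x₁) = 0 := by
    apply hkill
    rw [map_sub, map_zsmul, hm, sub_self]
  obtain ⟨u, v, huv⟩ := hcop
  have hx₂' : ((p ^ n : ℕ) : ℤ) • x₂ = 0 := by
    rw [natCast_zsmul]
    exact hx₂
  have h6 : (((P : Subgroup (F ≃ₐ[K] F)).index : ℕ) : ℤ) • x₂
      = ((((P : Subgroup (F ≃ₐ[K] F)).index : ℕ) : ℤ) * m) • x₁ := by
    rw [zsmul_sub, sub_eq_zero] at h5
    rw [h5, mul_zsmul]
  refine ⟨v * ((((P : Subgroup (F ≃ₐ[K] F)).index : ℕ) : ℤ) * m), ?_⟩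
  calc x₂ = (1 : ℤ) • x₂ := (one_zsmul x₂).symm
    _ = (u * ((p ^ n : ℕ) : ℤ) + v * (((P : Subgroup (F ≃ₐ[K] F)).index : ℕ) : ℤ)) • x₂ := by
        rw [huv]
    _ = v • ((((P : Subgroup (F ≃ₐ[K] F)).index : ℕ) : ℤ) • x₂) := by
        rw [add_zsmul, mul_zsmul, mul_zsmul, hx₂', zsmul_zero, zero_add]
    _ = (v * ((((P : Subgroup (F ≃ₐ[K] F)).index : ℕ) : ℤ) * m)) • x₁ := by
        rw [h6, ← mul_zsmul]

end Fermat.Agent.H38.Brauer
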